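/-
helper2.  P-S13, WP-Lp (blueprint note 786 §6): the abstract linear algebra on a plane.
-/
import Mathlib

set_option autoImplicit false

namespace Fermat.Agent.S13.LocalP

open Module

section Flag

variable {F V : Type*} [Field F] [AddCommGroup V] [Module F V]

/-- In a plane, a proper subspace `M` is either contained in a given line `N` or meets it
trivially. -/
theorem le_or_inf_eq_bot (h2 : finrank F V = 2) {N M : Submodule F V} (hN0 : N ≠ ⊥)
    (hN1 : N ≠ ⊤) (hM1 : M ≠ ⊤) : M ≤ N ∨ M ⊓ N = ⊥ := by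
  have : FiniteDimensional F V := FiniteDimensional.of_finrank_pos (by omega)
  have hNpos : 0 < finrank F N := by
    rw [Nat.pos_iff_ne_zero]
    intro h0
    exact hN0 (Submodule.finrank_eq_zero.mp h0)
  have hNlt : finrank F N < 2 := h2 ▸ Submodule.finrank_lt hN1
  have hMlt : finrank F M < 2 := h2 ▸ Submodule.finrank_lt hM1
  have hN : finrank F N = 1 := by omega
  by_cases hbot : M ⊓ N = ⊥
  · exact Or.inr hbot
  left
  have hpos : 0 < finrank F (M ⊓ N : Submodule F V) := by
    rw [Nat.pos_iff_ne_zero]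
    intro h0
    exact hbot (Submodule.finrank_eq_zero.mp h0)
  have h1 : (M ⊓ N : Submodule F V) = N :=
    Submodule.eq_of_le_of_finrank_le inf_le_right (by omega)
  have hNM : N ≤ M := by
    rw [← h1]; exact inf_le_left
  have h3 : N = M := Submodule.eq_of_le_of_finrank_le hNM (by omega)
  exact h3 ▸ le_rfl

/-- A line in a plane is spanned by any of its nonzero vectors. -/
theorem exists_smul_eq_of_line (h2 : finrank F V = 2) {N : Submodule F V} (hN0 : N ≠ ⊥)
    (hN1 : N ≠ ⊤) {x₀ : V} (hx₀ : x₀ ∈ N) (hx₀0 : x₀ ≠ 0) {w : V} (hw : w ∈ N) :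
    ∃ c : F, c • x₀ = w := by
  have : FiniteDimensional F V := FiniteDimensional.of_finrank_pos (by omega)
  have hNpos : 0 < finrank F N := by
    rw [Nat.pos_iff_ne_zero]
    intro h0
    exact hN0 (Submodule.finrank_eq_zero.mp h0)
  have hNlt : finrank F N < 2 := h2 ▸ Submodule.finrank_lt hN1
  have hN : finrank F N = 1 := by omega
  have hne : (⟨x₀, hx₀⟩ : N) ≠ 0 := by
    intro h
    exact hx₀0 (congrArg Subtype.val h)
  obtain ⟨c, hc⟩ := (finrank_eq_one_iff_of_nonzero' (⟨x₀, hx₀⟩ : N) hne).mp hN ⟨w, hw⟩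
  exact ⟨c, congrArg Subtype.val hc⟩

end Flag

end Fermat.Agent.S13.LocalP
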