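/-
helper2.  P-S13, WP-Lp (blueprint note 786 §6): on the two-torsion models of the S05 development,
an automorphism acting trivially modulo the maximal ideal of a valuation subring `A` (residue
characteristic `≠ 2`) moves every `p`-torsion point by an element of the kernel of reduction.
Unlike S05 the residue characteristic is allowed to be `p`.
-/
import Fermat.Agent.S05.ModelFixed

set_option autoImplicit false
set_option linter.unusedSectionVars false

namespace Fermat.Agent.S13.LocalP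

open WeierstrassCurve WeierstrassCurve.Affine Fermat.Agent.S05

variable {K : Type*} [Field K] [DecidableEq K] [Algebra ℚ K]

theorem nearZero_map_sub_of_nearZero {W' : Affine ℚ} (hW : IsTwoModel (W'⁄K))
    (A : ValuationSubring K) (f : K →ₐ[ℚ] K) (hfA : ∀ x, x ∉ A → f x ∉ A)
    (ha : (W'⁄K).a₂ ∈ A) (hb : (W'⁄K).a₄ ∈ A) {Q : (W'⁄K).Point} (hQ : NearZero A Q) :
    NearZero A (Point.map (W' := W') f Q - Q) := by
  rw [sub_eq_add_neg]
  apply nearZero_add hW A ha hb _ (nearZero_neg A hQ)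
  rcases Q with _ | ⟨x, y, h⟩
  · exact trivial
  · rw [Point.map_some]
    exact hfA x hQ

/-- Good reduction. -/
theorem nearZero_map_sub_of_good {W' : Affine ℚ} (hW : IsTwoModel (W'⁄K))
    (A : ValuationSubring K) (f : K →ₐ[ℚ] K) (hf : ∀ x ∈ A, A.valuation (f x - x) < 1)
    (hfA : ∀ x, x ∉ A → f x ∉ A)
    (ha : (W'⁄K).a₂ ∈ A) (hb : A.valuation (W'⁄K).a₄ = 1) (h2 : A.valuation (2 : K) = 1)
    (hdisc : A.valuation ((W'⁄K).a₂ ^ 2 - 4 * (W'⁄K).a₄) = 1) (Q : (W'⁄K).Point) :
    NearZero A (Point.map (W' := W') f Q - Q) := by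
  have hb' : (W'⁄K).a₄ ∈ A := by
    rw [← A.valuation_le_one_iff, hb]
  by_cases hQ : NearZero A Q
  · exact nearZero_map_sub_of_nearZero hW A f hfA ha hb' hQ
  rcases Q with _ | ⟨x, y, h⟩
  · exact absurd trivial hQ
  · have hx : x ∈ A := by
      by_contra hx
      exact hQ hx
    rw [Point.map_some]
    have hy := y_mem_of_x_mem hW A ha hb' h hx
    exact nearZero_sub_of_congr hW A ha hb' h2 hdisc h _ hx (hf x hx) (hf y hy) (Or.inr hb)

/-- Multiplicative reduction. -/
theorem nearZero_map_sub_of_mult {W' : Affine ℚ} (A : ValuationSubring K) (f : K →ₐ[ℚ] K)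
    (hf : ∀ x ∈ A, A.valuation (f x - x) < 1) (hfA : ∀ x, x ∉ A → f x ∉ A)
    {γ : K} (D : MultData A (W'⁄K) γ)
    {p : ℕ} (hp : p.Prime) (hp2 : p ≠ 2)
    {r : ℚ} (hr : A.valuation (W'⁄K).a₄ = A.valuation (algebraMap ℚ K r) ^ p)
    {Q : (W'⁄K).Point} (hQp : p • Q = 0) :
    NearZero A (Point.map (W' := W') f Q - Q) := by
  have ha : (W'⁄K).a₂ ∈ A := by
    rw [← A.valuation_le_one_iff, D.ha]
  have hb : (W'⁄K).a₄ ∈ A := by
    rw [← A.valuation_le_one_iff]
    exact D.hb.le
  have hdisc : A.valuation ((W'⁄K).a₂ ^ 2 - 4 * (W'⁄K).a₄) = 1 := by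
    have h4 : A.valuation (4 : K) = 1 := by
      have : (4 : K) = 2 * 2 := by norm_num
      rw [this, map_mul, D.h2, one_mul]
    have h1 : A.valuation ((W'⁄K).a₂ ^ 2) = 1 := by rw [map_pow, D.ha, one_pow]
    have h3 : A.valuation (4 * (W'⁄K).a₄) < 1 := by
      rw [map_mul, h4, one_mul]; exact D.hb
    rw [Valuation.map_sub_eq_of_lt_left _ (by rw [h1]; exact h3), h1]
  by_cases hQ : NearZero A Q
  · exact nearZero_map_sub_of_nearZero D.model A f hfA ha hb hQ
  rcases Q with _ | ⟨x, y, h⟩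
  · exact absurd trivial hQ
  · have hx : x ∈ A := by
      by_contra hx
      exact hQ hx
    rw [Point.map_some]
    have hr0 : algebraMap ℚ K r ≠ 0 := by
      intro h0
      rw [h0, map_zero, zero_pow hp.ne_zero] at hr
      exact D.beta_ne_zero hr
    rcases valuation_x_of_torsion D hp hp2 hr h hQp with h1 | ⟨hxb, hx1, hyx, j, hj⟩
    · have hy := y_mem_of_x_mem D.model A ha hb h hx
      have hx1 : A.valuation x = 1 := le_antisymm ((A.valuation_le_one_iff _).mpr hx) h1
      exact nearZero_sub_of_congr D.model A ha hb D.h2 hdisc h _ hx (hf x hx) (hf y hy)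
        (Or.inl hx1)
    · have hc : f (algebraMap ℚ K r ^ j) = algebraMap ℚ K r ^ j := by
        rw [map_pow, AlgHom.commutes]
      have hc0 : algebraMap ℚ K r ^ j ≠ 0 := pow_ne_zero _ hr0
      have hxc : A.valuation x = A.valuation (algebraMap ℚ K r ^ j) := by rw [hj, map_pow]
      have hxx := valuation_map_sub_lt f hf hc hc0 hxc
      have hyy := valuation_map_sub_lt f hf hc hc0 (hyx.trans hxc)
      exact nearZero_sub_of_ratio D.model A D.ha D.h2 h _ hx1 hxb hxx hyy

end Fermat.Agent.S13.LocalP
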