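/-
helper2.  P-S13, WP-Lp (blueprint note 786 §6): the three reduction types of the Frey curve at a
valuation subring over `p` itself.  In each case an automorphism acting trivially modulo the
maximal ideal moves every `p`-torsion point of a suitable two-torsion model by an element of the
kernel of reduction.
-/
import Fermat.Agent.S05.Final
import Fermat.Agent.S13.LocalP.Model

set_option autoImplicit false
set_option linter.unusedSectionVars false

namespace Fermat.Agent.S13.LocalP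

open WeierstrassCurve WeierstrassCurve.Affine Fermat.Agent.S05

variable {K : Type*} [Field K] [DecidableEq K] [Algebra ℚ K]

section frey

variable (P : FreyPackage) (A : ValuationSubring K) (hA : (P.p : K) ∈ A.nonunits)

theorem p_ne_two : P.p ≠ 2 := by have := P.hp5; omega

theorem a₂_AB_mem : ((freyTwoAB P)⁄K).a₂ ∈ A := by
  rw [a₂_AB]; exact S05.intCast_mem A _

theorem a₄_AB_mem : ((freyTwoAB P)⁄K).a₄ ∈ A := by
  rw [a₄_AB]; exact S05.intCast_mem A _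

theorem a₂_C_mem : ((freyTwoC P)⁄K).a₂ ∈ A := by
  rw [a₂_C]; exact S05.intCast_mem A _

theorem a₄_C_mem : ((freyTwoC P)⁄K).a₄ ∈ A := by
  rw [a₄_C]; exact S05.intCast_mem A _

include hA in
theorem frey_good_near (hgood : ¬ (P.p : ℤ) ∣ P.a * P.b * P.c) (f : K →ₐ[ℚ] K)
    (hf : ∀ x ∈ A, A.valuation (f x - x) < 1) (hfA : ∀ x, x ∉ A → f x ∉ A)
    (Q : ((freyTwoAB P)⁄K).Point) :
    NearZero A (Point.map (W' := freyTwoAB P) f Q - Q) := by
  obtain ⟨h1, h2⟩ := frey_case_good P P.pp hgood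
  refine nearZero_map_sub_of_good (isTwoModel_AB P) A f hf hfA (a₂_AB_mem P A) ?_
    (valuation_two P.pp (p_ne_two P) A hA) ?_ Q
  · rw [a₄_AB]
    exact valuation_intCast_eq_one P.pp hA (by rwa [dvd_neg])
  · rw [a₂_AB, a₄_AB]
    have e : ((P.b ^ P.p - P.a ^ P.p : ℤ) : K) ^ 2 - 4 * ((-(P.a ^ P.p * P.b ^ P.p) : ℤ) : K) =
        (((P.b ^ P.p - P.a ^ P.p) ^ 2 + 4 * (P.a ^ P.p * P.b ^ P.p) : ℤ) : K) := by
      push_cast; ring
    rw [e]
    exact valuation_intCast_eq_one P.pp hA h2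

variable [IsAlgClosed K]

include hA in
theorem frey_ab_near (hab : (P.p : ℤ) ∣ P.a * P.b) (f : K →ₐ[ℚ] K)
    (hf : ∀ x ∈ A, A.valuation (f x - x) < 1) (hfA : ∀ x, x ∉ A → f x ∉ A)
    (Q : ((freyTwoAB P)⁄K).Point) (hQ : P.p • Q = 0) :
    NearZero A (Point.map (W' := freyTwoAB P) f Q - Q) := by
  obtain ⟨γ, hγ⟩ := IsAlgClosed.exists_pow_nat_eq ((freyTwoAB P)⁄K).a₂ (n := 2) (by norm_num)
  have hdvd : (P.p : ℤ) ∣ -(P.a ^ P.p * P.b ^ P.p) := by
    rw [dvd_neg, ← mul_pow]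
    exact dvd_pow hab P.hp0
  have D : MultData A ((freyTwoAB P)⁄K) γ := by
    refine ⟨isTwoModel_AB P, ?_, ?_, ?_, valuation_two P.pp (p_ne_two P) A hA, hγ⟩
    · rw [a₂_AB]; exact valuation_intCast_eq_one P.pp hA (frey_case_ab P P.pp hab)
    · rw [a₄_AB]; exact valuation_intCast_lt_one hA hdvd
    · rw [a₄_AB]
      have hne : (-(P.a ^ P.p * P.b ^ P.p) : ℤ) ≠ 0 :=
        neg_ne_zero.mpr (mul_ne_zero (pow_ne_zero _ P.ha0) (pow_ne_zero _ P.hb0))
      have hchar : CharZero K := algebraRat.charZero K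
      exact_mod_cast hne
  refine nearZero_map_sub_of_mult A f hf hfA D P.pp (p_ne_two P)
    (r := ((P.a * P.b : ℤ) : ℚ)) ?_ hQ
  rw [a₄_AB, map_intCast (algebraMap ℚ K), ← map_pow]
  have : ((-(P.a ^ P.p * P.b ^ P.p) : ℤ) : K) = -(((P.a * P.b : ℤ) : K) ^ P.p) := by
    push_cast; ring
  rw [this, Valuation.map_neg]

include hA in
theorem frey_c_near (hc : (P.p : ℤ) ∣ P.c) (f : K →ₐ[ℚ] K)
    (hf : ∀ x ∈ A, A.valuation (f x - x) < 1) (hfA : ∀ x, x ∉ A → f x ∉ A)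
    (Q : ((freyTwoC P)⁄K).Point) (hQ : P.p • Q = 0) :
    NearZero A (Point.map (W' := freyTwoC P) f Q - Q) := by
  obtain ⟨γ, hγ⟩ := IsAlgClosed.exists_pow_nat_eq ((freyTwoC P)⁄K).a₂ (n := 2) (by norm_num)
  have hdvd : (P.p : ℤ) ∣ P.a ^ P.p * P.c ^ P.p :=
    dvd_mul_of_dvd_right (dvd_pow hc P.hp0) _
  have D : MultData A ((freyTwoC P)⁄K) γ := by
    refine ⟨isTwoModel_C P, ?_, ?_, ?_, valuation_two P.pp (p_ne_two P) A hA, hγ⟩
    · rw [a₂_C]; exact valuation_intCast_eq_one P.pp hA (frey_case_c P P.pp hc).1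
    · rw [a₄_C]; exact valuation_intCast_lt_one hA hdvd
    · rw [a₄_C]
      have hne : (P.a ^ P.p * P.c ^ P.p : ℤ) ≠ 0 :=
        mul_ne_zero (pow_ne_zero _ P.ha0) (pow_ne_zero _ P.hc0)
      have hchar : CharZero K := algebraRat.charZero K
      exact_mod_cast hne
  refine nearZero_map_sub_of_mult A f hf hfA D P.pp (p_ne_two P)
    (r := ((P.a * P.c : ℤ) : ℚ)) ?_ hQ
  rw [a₄_C, map_intCast (algebraMap ℚ K), ← map_pow]
  have : ((P.a ^ P.p * P.c ^ P.p : ℤ) : K) = (((P.a * P.c : ℤ) : K) ^ P.p) := by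
    push_cast; ring
  rw [this]

/-- The good two-torsion model of the Frey curve at a valuation subring over `p`. -/
structure LocalModel (W₂ : Affine ℚ) : Prop where
  twoModel : IsTwoModel (W₂⁄K)
  ha : (W₂⁄K).a₂ ∈ A
  hb : (W₂⁄K).a₄ ∈ A
  near : ∀ f : K →ₐ[ℚ] K, (∀ x ∈ A, A.valuation (f x - x) < 1) → (∀ x, x ∉ A → f x ∉ A) →
    ∀ Q : (W₂⁄K).Point, P.p • Q = 0 → NearZero A (Point.map (W' := W₂) f Q - Q)

include hA in
theorem exists_localModel :
    ∃ (W₂ : Affine ℚ) (C : VariableChange ℚ), C • W₂ = P.freyCurve ∧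
      (W₂ = freyTwoAB P ∨ W₂ = freyTwoC P) ∧ LocalModel P A W₂ := by
  rcases frey_cases P P.pp with h | ⟨h, _⟩ | ⟨h, _⟩
  · exact ⟨freyTwoAB P, changeTwoAB, changeTwoAB_smul P, Or.inl rfl, isTwoModel_AB P,
      a₂_AB_mem P A, a₄_AB_mem P A, fun f hf hfA Q _ => frey_good_near P A hA h f hf hfA Q⟩
  · exact ⟨freyTwoAB P, changeTwoAB, changeTwoAB_smul P, Or.inl rfl, isTwoModel_AB P,
      a₂_AB_mem P A, a₄_AB_mem P A, fun f hf hfA Q hQ => frey_ab_near P A hA h f hf hfA Q hQ⟩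
  · exact ⟨freyTwoC P, changeTwoC P, changeTwoC_smul P, Or.inr rfl, isTwoModel_C P,
      a₂_C_mem P A, a₄_C_mem P A, fun f hf hfA Q hQ => frey_c_near P A hA h f hf hfA Q hQ⟩

end frey

end Fermat.Agent.S13.LocalP
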