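/-
helper2.  P-S13, WP-Lp (blueprint note 786 §6): the `x`-coordinates on a Galois stable line.

For a point `P₀` of prime order `p ≠ 2` spanning a Galois stable line, the number
`r = ∏_{1 ≤ j ≤ (p-1)/2} x(j P₀)` is fixed by the Galois group (Gauss' lemma permutation), hence
rational; if all `x(j P₀)` are non-integral at a valuation subring over `p` then
`v(r) ≥ v(p)⁻¹`.  Together with the product formula this excludes `E[p] ⊆ E₁`.
-/
import Mathlib
import Fermat.Agent.S05.Arith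
import Fermat.Agent.S05.Defs

set_option autoImplicit false
set_option linter.unusedSectionVars false

namespace Fermat.Agent.S13.LocalP

open WeierstrassCurve WeierstrassCurve.Affine

section XC

variable {K : Type*} [Field K]

/-- The `x`-coordinate of a point (`0` at the point at infinity). -/
def xc {W : Affine K} : W.Point → K
  | .zero => 0
  | .some x _ _ => x

@[simp] theorem xc_zero {W : Affine K} : xc (0 : W.Point) = 0 := rfl

@[simp] theorem xc_some {W : Affine K} {x y : K} (h : W.Nonsingular x y) :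
    xc (Point.some x y h) = x := rfl

theorem xc_neg [DecidableEq K] {W : Affine K} (Q : W.Point) : xc (-Q) = xc Q := by
  rcases Q with _ | ⟨x, y, h⟩
  · rfl
  · rw [Point.neg_some]; rfl

theorem xc_map [DecidableEq K] [Algebra ℚ K] {W' : Affine ℚ} (f : K →ₐ[ℚ] K) (Q : (W'⁄K).Point) :
    xc (Point.map (W' := W') f Q) = f (xc Q) := by
  rcases Q with _ | ⟨x, y, h⟩
  · exact (map_zero f).symm
  · rw [Point.map_some]; rfl

/-- A point of the kernel of reduction which is not `0` has non-integral `x`-coordinate. -/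
theorem one_lt_valuation_xc (A : ValuationSubring K) {W : Affine K} {Q : W.Point}
    (hQ : S05.NearZero A Q) (hQ0 : Q ≠ 0) : 1 < A.valuation (xc Q) := by
  rcases Q with _ | ⟨x, y, h⟩
  · exact absurd rfl hQ0
  · rw [xc_some, ← not_le, A.valuation_le_one_iff]
    exact hQ

end XC

section RatVal

variable {L : Type*} [Field L] [CharZero L] (A : ValuationSubring L) {q : ℕ}

/-- A rational number in the maximal ideal of a valuation subring over `q` has valuation at most
that of `q`. -/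
theorem valuation_ratCast_le_of_lt_one (hq : q.Prime) (hA : (q : L) ∈ A.nonunits) {r : ℚ}
    (hr : A.valuation (r : L) < 1) : A.valuation (r : L) ≤ A.valuation (q : L) := by
  have hb0 : ((r.den : ℤ) : L) ≠ 0 := by
    have := r.den_ne_zero
    exact_mod_cast this
  have hrab : (r : L) * ((r.den : ℤ) : L) = ((r.num : ℤ) : L) := by
    have : (r : L) = (r.num : L) / (r.den : L) := Rat.cast_def r
    rw [this]
    push_cast
    field_simp
  have hv := congrArg A.valuation hrab
  rw [map_mul] at hv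
  have hble : A.valuation ((r.den : ℤ) : L) ≤ 1 := S05.valuation_intCast_le_one A _
  by_cases hnum : (q : ℤ) ∣ r.num
  · have hden : ¬ (q : ℤ) ∣ (r.den : ℤ) := by
      intro hden
      have h1 : (q : ℤ) ∣ Int.gcd r.num r.den := Int.dvd_coe_gcd hnum hden
      have h2 : Int.gcd r.num r.den = 1 := r.reduced
      rw [h2] at h1
      have := Int.le_of_dvd one_pos h1
      have hq2 := hq.two_le
      omega
    have hvb : A.valuation ((r.den : ℤ) : L) = 1 := S05.valuation_intCast_eq_one hq hA hden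
    rw [hvb, mul_one] at hv
    rw [hv]
    obtain ⟨a', ha'⟩ := hnum
    rw [ha']
    push_cast
    rw [map_mul]
    calc A.valuation (q : L) * A.valuation (a' : L) ≤ A.valuation (q : L) * 1 := by
          gcongr
          exact S05.valuation_intCast_le_one A a'
      _ = A.valuation (q : L) := mul_one _
  · exfalso
    have hva : A.valuation ((r.num : ℤ) : L) = 1 := S05.valuation_intCast_eq_one hq hA hnum
    rw [hva] at hv
    have hlt : A.valuation (r : L) * A.valuation ((r.den : ℤ) : L) < 1 :=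
      mul_lt_one_of_lt_of_le hr hble
    rw [hv] at hlt
    exact lt_irrefl _ hlt

/-- A rational number which is not integral at a valuation subring over `q` has valuation at
least that of `q⁻¹`. -/
theorem inv_valuation_le_of_one_lt (hq : q.Prime) (hA : (q : L) ∈ A.nonunits) {r : ℚ}
    (hr : 1 < A.valuation (r : L)) : (A.valuation (q : L))⁻¹ ≤ A.valuation (r : L) := by
  have hr0 : A.valuation (r : L) ≠ 0 := (lt_trans zero_lt_one hr).ne'
  have h1 : A.valuation ((r⁻¹ : ℚ) : L) < 1 := by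
    push_cast
    rw [map_inv₀]
    exact inv_lt_one_of_one_lt₀ hr
  have h2 := valuation_ratCast_le_of_lt_one A hq hA h1
  push_cast at h2
  rw [map_inv₀] at h2
  have hq0 : A.valuation (q : L) ≠ 0 := by
    rw [Valuation.ne_zero_iff]
    exact_mod_cast hq.ne_zero
  rw [inv_le_comm₀ (zero_lt_iff.mpr hq0) (zero_lt_iff.mpr hr0)]
  exact h2

end RatVal

section Torsion

variable {G : Type*} [AddCommGroup G] {p : ℕ} [Fact p.Prime]

theorem zsmul_eq_of_zmod_eq {P₀ : G} (hP₀ : p • P₀ = 0) {m n : ℤ}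
    (h : (m : ZMod p) = (n : ZMod p)) : m • P₀ = n • P₀ := by
  have h1 : ((m - n : ℤ) : ZMod p) = 0 := by
    push_cast
    rw [h, sub_self]
  rw [ZMod.intCast_zmod_eq_zero_iff_dvd] at h1
  obtain ⟨c, hc⟩ := h1
  have h2 : m = n + (p : ℤ) * c := by omega
  rw [h2, add_zsmul, mul_comm, mul_zsmul, natCast_zsmul, hP₀, smul_zero, add_zero]

theorem nsmul_eq_zero_iff_of_prime {P₀ : G} (hP₀ : p • P₀ = 0) (hne : P₀ ≠ 0) (n : ℕ) :
    n • P₀ = 0 ↔ (n : ZMod p) = 0 := by
  have hp : p.Prime := Fact.out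
  have hord : addOrderOf P₀ = p := addOrderOf_eq_prime hP₀ hne
  rw [ZMod.natCast_eq_zero_iff, ← hord]
  exact addOrderOf_dvd_iff_nsmul_eq_zero.symm

theorem zsmul_eq_zero_iff_of_prime {P₀ : G} (hP₀ : p • P₀ = 0) (hne : P₀ ≠ 0) (n : ℤ) :
    n • P₀ = 0 ↔ (n : ZMod p) = 0 := by
  have hp : p.Prime := Fact.out
  have hord : addOrderOf P₀ = p := addOrderOf_eq_prime hP₀ hne
  rw [ZMod.intCast_zmod_eq_zero_iff_dvd, ← hord]
  exact addOrderOf_dvd_iff_zsmul_eq_zero.symm

end Torsion

section Gauss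

variable {K : Type*} [Field K] [DecidableEq K] {p : ℕ} [Fact p.Prime]

/-- The `x`-coordinate of `n • P₀` only depends on `± n` modulo `p`. -/
theorem xc_nsmul_valMinAbs {W : Affine K} {P₀ : W.Point} (hP₀ : p • P₀ = 0) (n : ℕ) :
    xc (((n : ZMod p).valMinAbs.natAbs) • P₀) = xc (n • P₀) := by
  set m : ℤ := (n : ZMod p).valMinAbs with hm
  have h1 : ((m : ℤ) : ZMod p) = ((n : ℤ) : ZMod p) := by
    rw [hm, ZMod.coe_valMinAbs]
    simp
  have h2 : m • P₀ = (n : ℤ) • P₀ := zsmul_eq_of_zmod_eq hP₀ h1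
  rw [natCast_zsmul] at h2
  rw [← h2]
  rcases Int.natAbs_eq m with h | h
  · conv_rhs => rw [h]
    rw [natCast_zsmul]
  · conv_rhs => rw [h]
    rw [neg_zsmul, natCast_zsmul, xc_neg]

/-- The product of the `x`-coordinates of `j P₀`, `1 ≤ j ≤ (p-1)/2`. -/
noncomputable def halfProd {W : Affine K} (p : ℕ) (P₀ : W.Point) : K :=
  ∏ j ∈ Finset.Ico 1 (p / 2).succ, xc (j • P₀)

/-- Gauss' lemma permutation: multiplying by `k` prime to `p` permutes the `x(j P₀)`. -/
theorem halfProd_nsmul {W : Affine K} {P₀ : W.Point} (hP₀ : p • P₀ = 0) {k : ℕ}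
    (hk : (k : ZMod p) ≠ 0) : halfProd p (k • P₀) = halfProd p P₀ := by
  unfold halfProd
  have h1 : ∀ j ∈ Finset.Ico 1 (p / 2).succ, xc (j • k • P₀) =
      (fun i : ℕ => xc (i • P₀)) (((k : ZMod p) * (j : ZMod p)).valMinAbs.natAbs) := by
    intro j _
    have := xc_nsmul_valMinAbs hP₀ (k * j)
    rw [Nat.cast_mul] at this
    show _ = xc ((((k : ZMod p) * (j : ZMod p)).valMinAbs.natAbs) • P₀)
    rw [this, mul_comm, mul_smul]
  rw [Finset.prod_congr rfl h1, Finset.prod_eq_multiset_prod]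
  have h2 : Multiset.map (fun x : ℕ => (fun i : ℕ => xc (i • P₀))
      (((k : ZMod p) * (x : ZMod p)).valMinAbs.natAbs)) (Finset.Ico 1 (p / 2).succ).val =
      Multiset.map (fun i : ℕ => xc (i • P₀)) (Multiset.map
        (fun x : ℕ => ((k : ZMod p) * (x : ZMod p)).valMinAbs.natAbs)
        (Finset.Ico 1 (p / 2).succ).val) := by
    rw [Multiset.map_map]
    rfl
  rw [h2, ZMod.Ico_map_valMinAbs_natAbs_eq_Ico_map_id p (k : ZMod p) hk, Multiset.map_map,
    Finset.prod_eq_multiset_prod]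
  rfl

end Gauss

section Galois

variable {K : Type*} [Field K] [DecidableEq K] [Algebra ℚ K] {p : ℕ} [Fact p.Prime]
  {W' : Affine ℚ}

theorem halfProd_map (f : K →ₐ[ℚ] K) (P₀ : (W'⁄K).Point) :
    halfProd p (Point.map (W' := W') f P₀) = f (halfProd p P₀) := by
  unfold halfProd
  rw [map_prod]
  refine Finset.prod_congr rfl fun j _ => ?_
  rw [← map_nsmul, xc_map]

/-- The half product of a point spanning a Galois stable line is fixed by the Galois group. -/
theorem halfProd_fixed {P₀ : (W'⁄K).Point} (hP₀ : p • P₀ = 0) (hne : P₀ ≠ 0) (σ : K ≃ₐ[ℚ] K)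
    {k : ℕ} (hk : Point.map (W' := W') σ.toAlgHom P₀ = k • P₀) :
    σ (halfProd p P₀) = halfProd p P₀ := by
  have hk0 : (k : ZMod p) ≠ 0 := by
    intro h0
    rw [← nsmul_eq_zero_iff_of_prime hP₀ hne] at h0
    rw [h0] at hk
    apply hne
    apply Point.map_injective (W' := W') (f := σ.toAlgHom)
    rw [hk, map_zero]
  have h1 := halfProd_map (p := p) σ.toAlgHom P₀
  rw [hk, halfProd_nsmul hP₀ hk0] at h1
  exact h1.symm

theorem one_lt_prod_of_one_lt {ι Γ : Type*} [LinearOrderedCommGroupWithZero Γ] (s : Finset ι)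
    (f : ι → Γ) (hs : s.Nonempty) (h : ∀ i ∈ s, 1 < f i) : 1 < ∏ i ∈ s, f i := by
  induction hs using Finset.Nonempty.cons_induction with
  | singleton a => simpa using h
  | cons a s ha hs ih =>
    rw [Finset.prod_cons]
    exact one_lt_mul_of_lt_of_le' (h a (Finset.mem_cons_self a s))
      (ih fun i hi => h i (Finset.mem_cons_of_mem hi)).le

theorem half_lt (hp2 : p ≠ 2) : 1 ≤ p / 2 ∧ p = 2 * (p / 2) + 1 := by
  have hp : p.Prime := Fact.out
  have hodd : p % 2 = 1 := (Nat.Prime.eq_two_or_odd hp).resolve_left hp2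
  have h3 : 2 ≤ p := hp.two_le
  omega

theorem nsmul_ne_zero_of_mem_Ico {G : Type*} [AddCommGroup G] {P₀ : G} (hP₀ : p • P₀ = 0)
    (hne : P₀ ≠ 0) {j : ℕ} (hj : j ∈ Finset.Ico 1 p) : j • P₀ ≠ 0 := by
  rw [Finset.mem_Ico] at hj
  rw [Ne, nsmul_eq_zero_iff_of_prime hP₀ hne, ZMod.natCast_eq_zero_iff]
  intro hd
  have := Nat.le_of_dvd (by omega) hd
  omega

variable (hdesc : ∀ x : K, (∀ σ : K ≃ₐ[ℚ] K, σ x = x) → ∃ r : ℚ, algebraMap ℚ K r = x)
  (B : ValuationSubring K) (hp2 : p ≠ 2) (hB : (p : K) ∈ B.nonunits)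
  {P₀ : (W'⁄K).Point} (hP₀ : p • P₀ = 0) (hne : P₀ ≠ 0)
  (hstab : ∀ σ : K ≃ₐ[ℚ] K, ∃ k : ℕ, Point.map (W' := W') σ.toAlgHom P₀ = k • P₀)
  (hnear : ∀ j : ℕ, S05.NearZero B (j • P₀))

include hdesc hp2 hB hP₀ hne hstab hnear in
/-- If the whole line spanned by `P₀` lies in the kernel of reduction then the half product has
valuation at least `v(p)⁻¹`. -/
theorem inv_valuation_le_halfProd :
    (B.valuation (p : K))⁻¹ ≤ B.valuation (halfProd p P₀) := by
  have hp : p.Prime := Fact.out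
  have hchar : CharZero K := algebraRat.charZero K
  obtain ⟨r, hr⟩ := hdesc (halfProd p P₀) fun σ => by
    obtain ⟨k, hk⟩ := hstab σ
    exact halfProd_fixed hP₀ hne σ hk
  have hr' : ((r : ℚ) : K) = halfProd p P₀ := by
    rw [← hr]; exact (eq_ratCast (algebraMap ℚ K) r).symm
  have h1 : 1 < B.valuation (halfProd p P₀) := by
    unfold halfProd
    rw [map_prod]
    obtain ⟨hh1, hh2⟩ := half_lt (p := p) hp2
    apply one_lt_prod_of_one_lt
    · exact ⟨1, Finset.mem_Ico.mpr ⟨le_rfl, by omega⟩⟩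
    · intro j hj
      apply one_lt_valuation_xc B (hnear j)
      apply nsmul_ne_zero_of_mem_Ico hP₀ hne
      rw [Finset.mem_Ico] at hj ⊢
      omega
  rw [← hr'] at h1 ⊢
  exact inv_valuation_le_of_one_lt B hp hB h1

end Galois

section Product

variable {K : Type*} [Field K] [DecidableEq K] [Algebra ℚ K] {p : ℕ} [Fact p.Prime]
  {W' : Affine ℚ}

/-- The product formula (G2) of the blueprint, as a hypothesis: the product of the valuations of
the `x`-coordinates of any finite set of nonzero `n`-torsion points in the kernel of reduction is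
at most `v(n)⁻²`. -/
def ProductBound (B : ValuationSubring K) (W : Affine K) (n : ℕ) : Prop :=
  ∀ S : Finset W.Point, (∀ Q ∈ S, n • Q = 0 ∧ Q ≠ 0 ∧ S05.NearZero B Q) →
    ∏ Q ∈ S, B.valuation (xc Q) ≤ ((B.valuation (n : K))⁻¹) ^ 2

theorem sub_nsmul_eq_neg {G : Type*} [AddCommGroup G] {P₀ : G} (hP₀ : p • P₀ = 0) {j : ℕ}
    (hj : j ≤ p) : (p - j) • P₀ = -(j • P₀) := by
  apply eq_neg_of_add_eq_zero_left
  rw [← add_nsmul, Nat.sub_add_cancel hj, hP₀]

/-- The product of `g(j P₀)` over `1 ≤ j < p` is the square of the half product, for an even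
function `g`. -/
theorem prod_Ico_eq_sq {G M : Type*} [AddCommGroup G] [CommMonoid M] (hp2 : p ≠ 2) {P₀ : G}
    (hP₀ : p • P₀ = 0) (g : G → M) (hg : ∀ Q, g (-Q) = g Q) :
    ∏ j ∈ Finset.Ico 1 p, g (j • P₀) = (∏ j ∈ Finset.Ico 1 (p / 2).succ, g (j • P₀)) ^ 2 := by
  obtain ⟨hh1, hh2⟩ := half_lt (p := p) hp2
  rw [← Finset.prod_Ico_consecutive (fun j => g (j • P₀)) (m := 1) (n := (p / 2).succ) (k := p)
    (by omega) (by omega), sq]
  congr 1
  have h1 := Finset.prod_Ico_reflect (fun j => g (j • P₀)) 1 (m := (p / 2).succ) (n := p)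
    (by omega)
  have e1 : p + 1 - (p / 2).succ = (p / 2).succ := by omega
  have e2 : p + 1 - 1 = p := by omega
  rw [e1, e2] at h1
  rw [← h1]
  refine Finset.prod_congr rfl fun j hj => ?_
  rw [Finset.mem_Ico] at hj
  rw [sub_nsmul_eq_neg hP₀ (by omega), hg]

variable (hdesc : ∀ x : K, (∀ σ : K ≃ₐ[ℚ] K, σ x = x) → ∃ r : ℚ, algebraMap ℚ K r = x)
  (B : ValuationSubring K) (hp2 : p ≠ 2) (hB : (p : K) ∈ B.nonunits)
  (hPB : ProductBound B (W'⁄K) p)
  {P₀ : (W'⁄K).Point} (hP₀ : p • P₀ = 0) (hne : P₀ ≠ 0)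
  (hstab : ∀ σ : K ≃ₐ[ℚ] K, ∃ k : ℕ, Point.map (W' := W') σ.toAlgHom P₀ = k • P₀)
  (hnear : ∀ j : ℕ, S05.NearZero B (j • P₀))
  {Q₁ : (W'⁄K).Point} (hQ₁ : p • Q₁ = 0) (hQ₁near : S05.NearZero B Q₁)
  (hQ₁not : ∀ k : ℕ, Q₁ ≠ k • P₀)

include hdesc hp2 hB hPB hP₀ hne hstab hnear hQ₁ hQ₁near hQ₁not in
/-- The product formula excludes that a Galois stable line and a further `p`-torsion point all
lie in the kernel of reduction at a valuation subring over `p`. -/
theorem false_of_productBound : False := by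
  classical
  have hp : p.Prime := Fact.out
  have hQ₁0 : Q₁ ≠ 0 := by
    have := hQ₁not 0
    rwa [zero_nsmul] at this
  have hinj : Set.InjOn (fun j : ℕ => j • P₀) (Finset.Ico 1 p : Finset ℕ) := by
    intro i hi j hj hij
    simp only [Finset.coe_Ico, Set.mem_Ico] at hi hj
    have h1 : ((i : ℤ) - (j : ℤ)) • P₀ = 0 := by
      rw [sub_zsmul, natCast_zsmul, natCast_zsmul]
      exact sub_eq_zero.mpr hij
    rw [zsmul_eq_zero_iff_of_prime hP₀ hne, ZMod.intCast_zmod_eq_zero_iff_dvd] at h1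
    obtain ⟨c, hc⟩ := h1
    have hc0 : c = 0 := by
      by_contra hc0
      have : 1 ≤ |c| := Int.one_le_abs hc0
      have h2 : |(i : ℤ) - (j : ℤ)| = (p : ℤ) * |c| := by
        rw [hc, abs_mul, Nat.abs_cast]
      have h3 : |(i : ℤ) - (j : ℤ)| < (p : ℤ) := by
        rw [abs_lt]; constructor <;> omega
      nlinarith
    rw [hc0, mul_zero] at hc
    omega
  set S0 : Finset (W'⁄K).Point := (Finset.Ico 1 p).image (fun j : ℕ => j • P₀) with hS0
  have hQ₁S0 : Q₁ ∉ S0 := by
    rw [hS0, Finset.mem_image]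
    rintro ⟨j, -, hj⟩
    exact hQ₁not j hj.symm
  have hS : ∀ Q ∈ insert Q₁ S0, p • Q = 0 ∧ Q ≠ 0 ∧ S05.NearZero B Q := by
    intro Q hQ
    rw [Finset.mem_insert] at hQ
    rcases hQ with rfl | hQ
    · exact ⟨hQ₁, hQ₁0, hQ₁near⟩
    · rw [hS0, Finset.mem_image] at hQ
      obtain ⟨j, hj, rfl⟩ := hQ
      refine ⟨?_, nsmul_ne_zero_of_mem_Ico hP₀ hne hj, hnear j⟩
      rw [smul_comm, hP₀, smul_zero]
  have h1 := hPB _ hS
  rw [Finset.prod_insert hQ₁S0, hS0, Finset.prod_image hinj,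
    prod_Ico_eq_sq hp2 hP₀ (fun Q => B.valuation (xc Q)) (fun Q => by rw [xc_neg])] at h1
  have h2 := inv_valuation_le_halfProd hdesc B hp2 hB hP₀ hne hstab hnear
  unfold halfProd at h2
  rw [map_prod] at h2
  set t := ∏ j ∈ Finset.Ico 1 (p / 2).succ, B.valuation (xc (j • P₀)) with ht
  have hq0 : 0 < (B.valuation (p : K))⁻¹ := by
    rw [inv_pos, zero_lt_iff, Valuation.ne_zero_iff]
    have hchar : CharZero K := algebraRat.charZero K
    exact_mod_cast hp.ne_zero
  have ht0 : 0 < t := lt_of_lt_of_le hq0 h2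
  have h3 : ((B.valuation (p : K))⁻¹) ^ 2 ≤ t ^ 2 := pow_le_pow_left₀ hq0.le h2 2
  have h4 : t ^ 2 < B.valuation (xc Q₁) * t ^ 2 :=
    lt_mul_of_one_lt_left (pow_pos ht0 2) (one_lt_valuation_xc B hQ₁near hQ₁0)
  exact lt_irrefl _ (lt_of_lt_of_le h4 (h1.trans h3))

end Product

end Fermat.Agent.S13.LocalP
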